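/-
PROJECT R (row 37 by S43), block L0 = `S43/JH/**` (helper11): THE PRIME-TO-`p` PART OF A FINITE
COMMUTATIVE GROUP AND THE TWISTING EXPONENT.

`G` a finite commutative group, `p` a prime, `p ^ a ∥ |G|`.
* `primeToP G p = {d ^ (p ^ a)}` : a subgroup with `p ∤ |primeToP G p|` (`not_dvd_card_primeToP`),
  containing every element of order prime to `p` (`mem_primeToP_of_coprime`) and every
  `d ^ (p ^ a)` (`pow_mem_primeToP`);
* `twExp G p = (p ^ a - 1) / 2` : for `p` odd, `2 * twExp G p + 1 = p ^ a`, hence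
  **`pow_twExp_mem : d ^ (2 * twExp G p + 1) ∈ primeToP G p`** : the hypothesis of `JH/Part.esH`
  at `G = (ZMod M)ˣ`, `H = primeToP G p`, `m = twExp G p`.
-/
import Mathlib

set_option autoImplicit false
set_option linter.unusedSectionVars false

noncomputable section

namespace Fermat.Agent.S43.JH.PrimeToP

variable (G : Type*) [CommGroup G] [Finite G] (p : ℕ) [hp : Fact p.Prime]

/-- the exponent of `p` in `|G|` -/
noncomputable def pExp : ℕ := (Nat.card G).factorization p

/-- **the prime-to-`p` part** of the finite commutative group `G` -/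
def primeToP : Subgroup G := (powMonoidHom (p ^ pExp G p) : G →* G).range

variable {G p}

theorem pow_mem_primeToP (d : G) : d ^ (p ^ pExp G p) ∈ primeToP G p := ⟨d, rfl⟩

/-- the kernel of `d ↦ d ^ (p ^ a)` has order `p ^ a` -/
theorem card_ker : Nat.card (powMonoidHom (p ^ pExp G p) : G →* G).ker = p ^ pExp G p := by
  classical
  set K := (powMonoidHom (p ^ pExp G p) : G →* G).ker with hK
  -- `K` is a `p`-group
  have hKp : IsPGroup p K := by
    intro x
    refine ⟨pExp G p, Subtype.ext ?_⟩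
    have hx : (x : G) ^ (p ^ pExp G p) = 1 := x.2
    rw [SubmonoidClass.coe_pow, hx]
    rfl
  obtain ⟨b, hb⟩ := (IsPGroup.iff_card.mp hKp)
  -- `p ^ b ∣ |G|`, so `b ≤ a`
  have h1 : p ^ b ∣ Nat.card G := hb ▸ Subgroup.card_subgroup_dvd_card K
  have hG0 : Nat.card G ≠ 0 := Nat.card_pos.ne'
  have h2 : b ≤ pExp G p := (hp.out.pow_dvd_iff_le_factorization hG0).mp h1
  -- a Sylow `p`-subgroup lies in `K`
  obtain ⟨P⟩ : Nonempty (Sylow p G) := inferInstance
  have hP : Nat.card P = p ^ pExp G p := Sylow.card_eq_multiplicity P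
  have hPK : (P : Subgroup G) ≤ K := by
    intro x hx
    show x ^ (p ^ pExp G p) = 1
    have h3 : (⟨x, hx⟩ : (P : Subgroup G)) ^ Nat.card (P : Subgroup G) = 1 := pow_card_eq_one'
    rw [hP] at h3
    exact congrArg Subtype.val h3
  have h4 : p ^ pExp G p ∣ p ^ b := by
    rw [← hP, ← hb]
    exact Subgroup.card_dvd_of_le hPK
  have h5 : pExp G p ≤ b := (Nat.pow_dvd_pow_iff_le_right hp.out.one_lt).mp h4
  rw [hb, le_antisymm h2 h5]

/-- `|primeToP G p| * p ^ a = |G|` -/
theorem card_primeToP_mul : Nat.card (primeToP G p) * p ^ pExp G p = Nat.card G := by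
  have h := Subgroup.card_eq_card_quotient_mul_card_subgroup
    (powMonoidHom (p ^ pExp G p) : G →* G).ker
  rw [card_ker] at h
  rw [h, primeToP]
  congr 1
  exact (Nat.card_congr (QuotientGroup.quotientKerEquivRange
    (powMonoidHom (p ^ pExp G p) : G →* G)).toEquiv).symm

/-- **`p ∤ |primeToP G p|`** -/
theorem not_dvd_card_primeToP : ¬ p ∣ Nat.card (primeToP G p) := by
  intro h
  have hG0 : Nat.card G ≠ 0 := Nat.card_pos.ne'
  have h1 : p ^ (pExp G p + 1) ∣ Nat.card G := by
    rw [← card_primeToP_mul (G := G) (p := p), pow_succ, mul_comm]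
    exact Nat.mul_dvd_mul_right h _
  have h2 := (hp.out.pow_dvd_iff_le_factorization hG0).mp h1
  exact Nat.not_succ_le_self _ h2

/-- every element of order prime to `p` lies in `primeToP G p` -/
theorem mem_primeToP_of_coprime {d : G} (hd : (orderOf d).Coprime p) : d ∈ primeToP G p := by
  have hcop : (Nat.card (Subgroup.zpowers d)).Coprime (p ^ pExp G p) := by
    rw [Nat.card_zpowers]
    exact Nat.Coprime.pow_right _ hd
  obtain ⟨y, hy⟩ := (powCoprime hcop).surjective ⟨d, Subgroup.mem_zpowers d⟩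
  refine ⟨(y : G), ?_⟩
  exact congrArg Subtype.val hy

variable (G p)

/-- **the twisting exponent** `m = (p ^ a - 1) / 2` -/
def twExp : ℕ := (p ^ pExp G p - 1) / 2

variable {G p}

theorem two_mul_twExp_add_one (hp2 : p ≠ 2) : 2 * twExp G p + 1 = p ^ pExp G p := by
  have hodd : Odd (p ^ pExp G p) := (hp.out.odd_of_ne_two hp2).pow
  obtain ⟨k, hk⟩ := hodd
  rw [twExp, hk]
  omega

/-- **`d ^ (2 m + 1) ∈ primeToP G p`** for `m = twExp G p`, `p` odd -/
theorem pow_twExp_mem (hp2 : p ≠ 2) (d : G) : d ^ (2 * twExp G p + 1) ∈ primeToP G p := by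
  rw [two_mul_twExp_add_one hp2]
  exact pow_mem_primeToP d

end Fermat.Agent.S43.JH.PrimeToP

end
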