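/-
PROJECT R (row 37 by S43), block L0 = `S43/JH/**` (helper11): THE EXPORTS OF `JH/Seam` THAT COME FROM MAIN
ALONE, on the Tate module `TpJ1 M p = Tp p (J1 M)` of the landed `J₁(M)` stack.

* `diamond1Bar_eq`, `diamond1Bar_mul`, `diamond1Bar_one`, `diamond1Bar_comm` : the diamond operators of
  `J1 M` are the action of the diamond automorphisms; they form a commutative group of operators
  (B1's `diamondAut_mul`, NO dictionary, every level `M`);
* `hecke_comm_diamond`, `hecke_comm_hecke` : on `p`-power torsion `T_r` (`r ∤ M p`) commutes with the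
  diamonds and with `T_{r'}` (`r' ∤ M p`) (Eichler–Shimura `T_r = σ + r ⟨r⟩ σ⁻¹`, NO dictionary);
* **`commSeam M p : Seam.CommSeam M p`**, **`unramSeam M p : Seam.UnramSeam M p`**,
  **`esSeam M p : Seam.ESSeam M p`** : every level `M`, every prime `p`;
* **`finiteFreeSeam M p (hM : 5 ≤ M) : Seam.FiniteFreeSeam M p`** (the dictionary of main is stated for
  `M ≥ 5`);
* `smooth M` : every point of `J1 M` has an open stabiliser (main's `SmoothSeam1`).
-/
import Mathlib
import Fermat.Agent.S43.JH.Seam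
import Fermat.Agent.S48.Reduction
import Fermat.Agent.S48.B.Inst.Top
import Fermat.Agent.S48.B.Inst.Torsion
import Fermat.Agent.S48.B.Red.Diamond1
import Fermat.Agent.S48.B.B1.DiamondUnique
import Fermat.Agent.S48.B.Hecke.Wire

set_option autoImplicit false
set_option linter.unusedSectionVars false

noncomputable section

namespace Fermat.Agent.S43.JH.Restrict

open AlgebraicCurve AlgebraicCurve.SemilinearAut
open Fermat.Agent.S48.B.Defs.Model Fermat.Agent.S48.B.Defs.Reduction Fermat.Agent.S48.B.Defs.Spec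
open Fermat.Agent.S30.Padic.TateModule
open Fermat.Agent.S43.JH.Seam

local notation "Kb" => AlgebraicClosure ℚ
local notation "GQ" => (AlgebraicClosure ℚ ≃ₐ[ℚ] AlgebraicClosure ℚ)

variable (M : ℕ) [NeZero M]

/-! ### the diamond operators form a commutative group of operators -/

/-- the diamond operator is the action of the diamond automorphism -/
theorem diamond1Bar_eq (d : (ZMod M)ˣ) (x : J1 M) :
    diamond1Bar M d x = ofAlgAut (diamondAut M Kb d⁻¹) • x :=
  Fermat.Agent.S48.B.Red.Diamond1.diamond1Bar_eq_smul d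
    (Fermat.Agent.S48.B.Hecke.Wire.corrDiamond_of (Fermat.Agent.S48.B.B1.Main.deg1 M) d⁻¹) x

theorem diamond1Bar_mul (d d' : (ZMod M)ˣ) (x : J1 M) :
    diamond1Bar M (d * d') x = diamond1Bar M d (diamond1Bar M d' x) := by
  rw [diamond1Bar_eq, diamond1Bar_eq, diamond1Bar_eq, ← mul_smul, ← map_mul, mul_inv,
    Fermat.Agent.S48.B.B1.DiamondUnique.diamondAut_mul (Fermat.Agent.S48.B.B1.Main.wpForms M)
      (Fermat.Agent.S48.B.B1.Main.repLe M)]
  rfl

theorem diamond1Bar_one (x : J1 M) : diamond1Bar M 1 x = x := by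
  rw [diamond1Bar_eq, inv_one,
    Fermat.Agent.S48.B.B1.DiamondUnique.diamondAut_one (Fermat.Agent.S48.B.B1.Main.wpForms M)
      (Fermat.Agent.S48.B.B1.Main.repLe M)]
  show ofAlgAut (1 : F1Bar M ≃ₐ[Kb] F1Bar M) • x = x
  rw [map_one, one_smul]

theorem diamond1Bar_comm (d d' : (ZMod M)ˣ) (x : J1 M) :
    diamond1Bar M d (diamond1Bar M d' x) = diamond1Bar M d' (diamond1Bar M d x) := by
  rw [← diamond1Bar_mul, ← diamond1Bar_mul, mul_comm]


/-! ### commutations on `p`-power torsion, without the dictionary -/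

section Torsion

open Fermat.Agent.S48.B.Inst.Torsion

variable {M} {p : ℕ}

theorem isTorsion_diamond (d : (ZMod M)ˣ) {v : J1 M} (hv : ∃ n : ℕ, p ^ n • v = 0) :
    ∃ n : ℕ, p ^ n • diamond1Bar M d v = 0 :=
  isTorsion_end _ hv

/-- `T_r` (`r ∤ M p`) commutes with the diamond operators on `p`-power torsion -/
theorem hecke_comm_diamond (hp : p.Prime) (r : Nat.Primes) (hrM : (r : ℕ).Coprime M)
    (hrp : (r : ℕ) ≠ p) (d : (ZMod M)ˣ) {v : J1 M} (hv : ∃ n : ℕ, p ^ n • v = 0) :
    hecke1Bar M r (diamond1Bar M d v) = diamond1Bar M d (hecke1Bar M r v) := by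
  have hred := Fermat.Agent.S48.Reduction.hasReduction1All M hp
  obtain ⟨A, hA⟩ := Fermat.Agent.Lib.FrobeniusExists.exists_valuationSubring_liesOverPrime
    (L := Kb) (r : ℕ) r.2
  obtain ⟨σ, hσ⟩ :=
    Fermat.Agent.Lib.FrobeniusExists.exists_isFrobeniusAt_algebraicClosure A r.2 hA
  have hgal := Fermat.Agent.S48.B.Arith.HeckeGalois1.galoisCommSeam1 M
  rw [hecke_eq_frob hred r hrM hrp A hA hσ (isTorsion_diamond d hv),
    hecke_eq_frob hred r hrM hrp A hA hσ hv, map_add, map_nsmul, hgal.2.2 d σ v,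
    ← hgal.2.2 d σ⁻¹ v, diamond1Bar_comm]

/-- `T_r` and `T_{r'}` (`r, r' ∤ M p`) commute on `p`-power torsion -/
theorem hecke_comm_hecke (hp : p.Prime) (r r' : Nat.Primes) (hrM : (r : ℕ).Coprime M)
    (hrp : (r : ℕ) ≠ p) (hr'M : (r' : ℕ).Coprime M) (hr'p : (r' : ℕ) ≠ p) {v : J1 M}
    (hv : ∃ n : ℕ, p ^ n • v = 0) :
    hecke1Bar M r (hecke1Bar M r' v) = hecke1Bar M r' (hecke1Bar M r v) := by
  have hred := Fermat.Agent.S48.Reduction.hasReduction1All M hp
  obtain ⟨A, hA⟩ := Fermat.Agent.Lib.FrobeniusExists.exists_valuationSubring_liesOverPrime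
    (L := Kb) (r : ℕ) r.2
  obtain ⟨σ, hσ⟩ :=
    Fermat.Agent.Lib.FrobeniusExists.exists_isFrobeniusAt_algebraicClosure A r.2 hA
  have hgal := Fermat.Agent.S48.B.Arith.HeckeGalois1.galoisCommSeam1 M
  rw [hecke_eq_frob hred r hrM hrp A hA hσ (isTorsion_end _ hv),
    hecke_eq_frob hred r hrM hrp A hA hσ hv, map_add, map_nsmul, hgal.1 r' σ v,
    ← hgal.1 r' σ⁻¹ v, hecke_comm_diamond hp r' hr'M hr'p _ (isTorsion_smul σ⁻¹ hv)]

end Torsion


/-! ### the seams on the Tate module -/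

section Tate

open Fermat.Agent.S48.B.Inst.Torsion

variable (p : ℕ) [hp : Fact p.Prime]

theorem galT_apply (σ : GQ) (x : TpJ1 M p) (k : ℕ) : (galT M p σ x).1 k = σ • x.1 k := rfl

theorem heckeT_apply (r : Nat.Primes) (x : TpJ1 M p) (k : ℕ) :
    (heckeT M p r x).1 k = hecke1Bar M r (x.1 k) := rfl

theorem diaT_apply (d : (ZMod M)ˣ) (x : TpJ1 M p) (k : ℕ) :
    (diaT M p d x).1 k = diamond1Bar M d (x.1 k) := rfl

theorem diaT_mul (d d' : (ZMod M)ˣ) : diaT M p (d * d') = diaT M p d * diaT M p d' := by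
  ext x k
  rw [Module.End.mul_apply, diaT_apply, diaT_apply, diaT_apply, diamond1Bar_mul]

theorem diaT_one : diaT M p 1 = 1 := by
  ext x k
  rw [Module.End.one_apply, diaT_apply, diamond1Bar_one]

/-- **`CommSeam`** : every level, every prime -/
theorem commSeam : CommSeam M p := by
  have hgal := Fermat.Agent.S48.B.Arith.HeckeGalois1.galoisCommSeam1 M
  refine ⟨fun σ r => ?_, fun σ d => ?_, fun r hrM hrp d => ?_, fun r r' hrM hr'M hrp hr'p => ?_,
    diaT_mul M p, diaT_one M p⟩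
  · exact Tp.commute_galoisHom_mapEnd σ _ (fun y => hgal.1 r σ y)
  · exact Tp.commute_galoisHom_mapEnd σ _ (fun y => hgal.2.2 d σ y)
  · ext x k
    have hrM' : (r : ℕ).Coprime M := (Nat.Prime.coprime_iff_not_dvd r.2).mpr hrM
    rw [Module.End.mul_apply, Module.End.mul_apply, heckeT_apply, diaT_apply, diaT_apply,
      heckeT_apply]
    exact hecke_comm_diamond hp.out r hrM' hrp d (Tp.isTorsion_apply x k)
  · ext x k
    have hrM' : (r : ℕ).Coprime M := (Nat.Prime.coprime_iff_not_dvd r.2).mpr hrM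
    have hr'M' : (r' : ℕ).Coprime M := (Nat.Prime.coprime_iff_not_dvd r'.2).mpr hr'M
    rw [Module.End.mul_apply, Module.End.mul_apply, heckeT_apply, heckeT_apply, heckeT_apply,
      heckeT_apply]
    exact hecke_comm_hecke hp.out r r' hrM' hrp hr'M' hr'p (Tp.isTorsion_apply x k)

/-- **`UnramSeam`** : inertia at `ℓ ∤ M p` acts trivially on the Tate module -/
theorem unramSeam : UnramSeam M p := by
  intro ℓ hℓ hℓM hℓp A hA σ hσ
  ext x k
  rw [galT_apply, Module.End.one_apply]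
  exact inertia_smul_eq (Fermat.Agent.S48.Reduction.hasReduction1All M hp.out) hℓ hℓM hℓp A hA hσ
    (Tp.isTorsion_apply x k)

/-- **`ESSeam`** : Eichler–Shimura on the Tate module -/
theorem esSeam : ESSeam M p := by
  intro ℓ hℓM hℓp A hA σ hσ
  ext x k
  have h := frobenius_quadratic (Fermat.Agent.S48.Reduction.hasReduction1All M hp.out) ℓ hℓM hℓp A
    hA hσ (Tp.isTorsion_apply x k)
  rw [LinearMap.add_apply, LinearMap.sub_apply, Module.End.mul_apply, Module.End.mul_apply,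
    LinearMap.smul_apply, LinearMap.zero_apply]
  show (galT M p σ (galT M p σ x)).1 k - (heckeT M p ℓ (galT M p σ x)).1 k +
    ((((ℓ : ℕ) : ℤ_[p]) • diaT M p (ZMod.unitOfCoprime (ℓ : ℕ) hℓM) x)).1 k = (0 : TpJ1 M p).1 k
  rw [Tp.coe_natCast_smul_apply, galT_apply, galT_apply, heckeT_apply, galT_apply, diaT_apply]
  exact h

/-- every point of `J₁(M)` has an open stabiliser -/
theorem smooth : SmoothSeam1 M :=
  Fermat.Agent.S48.B.Arith.Smooth1.smoothSeam1_of_deg1 M (Fermat.Agent.S48.B.B1.Main.deg1 M)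

/-- the dictionary of main (`M ≥ 5`) -/
theorem phiDict1 (hM : 5 ≤ M) : PhiDict1 M Fermat.Agent.S48.B.Inst.Top.iotaC :=
  Fermat.Agent.S48.B.Dict.Descent.RootTwist.phiDict1_of_deg_repLe M _
    (Fermat.Agent.S48.B.B1.Main.deg1 M) (Fermat.Agent.S48.B.B1.Main.repLe M)
    (Fermat.Agent.S48.B.Dict.Places.Final.psiDict1 M hM (Fermat.Agent.S48.B.B1.Main.deg1 M)
      (Fermat.Agent.S48.B.B1.Main.repLe M))

/-- the `p`-torsion of `J₁(M)` is finite (`M ≥ 5`) -/
theorem finite_torsion (hM : 5 ≤ M) : {y : J1 M | p • y = 0}.Finite :=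
  Fermat.Agent.S48.B.Inst.Dict.finite_torsion (phiDict1 M hM) hp.out.ne_zero

/-- **`FiniteFreeSeam`** (`M ≥ 5`) -/
theorem finiteFreeSeam (hM : 5 ≤ M) : FiniteFreeSeam M p :=
  ⟨Tp.finite_of_finite (finite_torsion M p hM), Tp.free_of_finite (finite_torsion M p hM)⟩

end Tate

end Fermat.Agent.S43.JH.Restrict
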