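/-
PROJECT R (row 37 by S43), block L0 = `S43/JH/**` (leader helper11): THE SEAM OF THE BLOCK, defs only.

`J_H` needs NO new function field: in the S43 engine every diamond group `H ≤ (ℤ/M)ˣ` we divide by has
order PRIME TO `p`, so `T_p J_H = e_H T_p J₁(M)` = the `H`-invariants of the Tate module of the landed
`J1 M` stack (`S48/B/Defs/Model`), a Galois-, Hecke- and diamond-stable direct summand.  Vocabulary:
main's abstract Tate module `S30/Padic/TateModule.Tp p J` at `J = J1 M`.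

OBJECTS (this file): `TpJ1 M p`, the operators `galT σ`, `heckeT r`, `diaT d` on it, `TpJH M H p`
(the `H`-invariants), `avgT M H p = ∑_{h ∈ H} ⟨h⟩`; at finite level `ppow M p` (the `p`-power torsion)
and `torsJH M H p` (its `H`-invariants).

WHAT L0 EXPORTS (each a `Prop` here; the theorems live in `JH/Summand.lean`, `JH/Restrict.lean`,
`JH/Gate.lean`):
* `CommSeam M p`      : the operators commute with each other and with the Galois action;
* `SummandSeam M H p` : an idempotent `e` of `End (TpJ1 M p)` with range `TpJH M H p`, commuting with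
                        every `galT`, `heckeT`, `diaT`, and `|H| • e = avgT`  (needs `p ∤ |H|`);
* `FiniteFreeSeam M p`: `TpJ1 M p` is finite free over `ℤ_[p]` (hence so is the summand `TpJH`);
* `UnramSeam M p`     : inertia at `ℓ ∤ M p` acts trivially;
* `ESSeam M p`        : Eichler–Shimura `σ² - T_ℓ σ + ℓ ⟨ℓ⟩ = 0` for every Frobenius `σ` at `ℓ ∤ M p`;
* `GateT N q p`       : the gate on the Tate module : `(s - 1)² (s - ⟨d_s⟩) = 0` for `s` in an inertia
                        group at `q`.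
WHAT L0 ASSUMES: main only (`S48/B`: `hasReduction1All`, `Inst/Torsion`, `TorsionFinite1`,
`GaloisCommSeam1`) for the first five; the gate `S43/Seam.LG1HypAt N q p false` (block G) for `GateT`.
-/
import Mathlib
import Fermat.Agent.S30.Padic.TateModule
import Fermat.Agent.S48.B.Defs.Model
import Fermat.Agent.S48.B.Defs.Reduction

set_option autoImplicit false

noncomputable section

namespace Fermat.Agent.S43.JH.Seam

open Fermat.Agent.S48.B.Defs.Model Fermat.Agent.S30.Padic.TateModule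

local notation "GQ" => (AlgebraicClosure ℚ ≃ₐ[ℚ] AlgebraicClosure ℚ)

variable (M : ℕ) [NeZero M] (p : ℕ) [Fact p.Prime]

/-! ### finite level -/

/-- the `p`-power torsion of `J₁(M)` -/
def ppow : AddSubgroup (J1 M) where
  carrier := {y | ∃ n : ℕ, p ^ n • y = 0}
  add_mem' := by
    rintro a b ⟨m, hm⟩ ⟨n, hn⟩
    refine ⟨m + n, ?_⟩
    show p ^ (m + n) • (a + b) = 0
    rw [nsmul_add, pow_add, mul_nsmul, hm, smul_zero, mul_nsmul', hn, smul_zero, add_zero]
  zero_mem' := ⟨0, smul_zero _⟩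
  neg_mem' := by
    rintro a ⟨m, hm⟩
    refine ⟨m, ?_⟩
    show p ^ m • (-a) = 0
    exact (smul_neg (p ^ m) a).trans (by rw [hm, neg_zero])

/-- **`J_H[p^∞]`** : the `H`-invariant `p`-power torsion of `J₁(M)` -/
def torsJH (H : Subgroup (ZMod M)ˣ) : AddSubgroup (J1 M) where
  carrier := {y | y ∈ ppow M p ∧ ∀ h ∈ H, diamond1Bar M h y = y}
  add_mem' := by
    rintro a b ⟨ha, ha'⟩ ⟨hb, hb'⟩
    exact ⟨(ppow M p).add_mem ha hb, fun h hh => by rw [map_add, ha' h hh, hb' h hh]⟩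
  zero_mem' := ⟨(ppow M p).zero_mem, fun h _ => map_zero _⟩
  neg_mem' := by
    rintro a ⟨ha, ha'⟩
    exact ⟨(ppow M p).neg_mem ha, fun h hh => by rw [map_neg, ha' h hh]⟩

/-! ### the Tate module -/

/-- **the `p`-adic Tate module of `J₁(M)`** -/
abbrev TpJ1 : Type := Tp p (J1 M)

/-- the Galois action on the Tate module -/
def galT : GQ →* Module.End ℤ_[p] (TpJ1 M p) := Tp.galoisHom (p := p) (J := J1 M) GQ

/-- `T_r` on the Tate module -/
def heckeT (r : Nat.Primes) : Module.End ℤ_[p] (TpJ1 M p) :=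
  Tp.mapEnd (p := p) (hecke1Bar M r).toAddMonoidHom

/-- `⟨d⟩_*` on the Tate module -/
def diaT (d : (ZMod M)ˣ) : Module.End ℤ_[p] (TpJ1 M p) :=
  Tp.mapEnd (p := p) (diamond1Bar M d).toAddMonoidHom

/-- **`T_p J_H`** : the `H`-invariants of the Tate module -/
def TpJH (H : Subgroup (ZMod M)ˣ) : Submodule ℤ_[p] (TpJ1 M p) where
  carrier := {x | ∀ h ∈ H, diaT M p h x = x}
  add_mem' := by
    intro a b ha hb h hh
    rw [map_add, ha h hh, hb h hh]
  zero_mem' := fun h _ => map_zero _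
  smul_mem' := by
    intro c a ha h hh
    rw [map_smul, ha h hh]

open Classical in
/-- the trace `∑_{h ∈ H} ⟨h⟩` -/
def avgT (H : Subgroup (ZMod M)ˣ) : Module.End ℤ_[p] (TpJ1 M p) :=
  ∑ h : H, diaT M p (h : (ZMod M)ˣ)

/-! ### the exports of L0 -/

/-- the operators commute with each other and with the Galois action -/
def CommSeam : Prop :=
  (∀ (σ : GQ) (r : Nat.Primes), Commute (galT M p σ) (heckeT M p r)) ∧
  (∀ (σ : GQ) (d : (ZMod M)ˣ), Commute (galT M p σ) (diaT M p d)) ∧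
  (∀ (r : Nat.Primes), ¬ (r : ℕ) ∣ M → (r : ℕ) ≠ p → ∀ d : (ZMod M)ˣ,
    Commute (heckeT M p r) (diaT M p d)) ∧
  (∀ (r r' : Nat.Primes), ¬ (r : ℕ) ∣ M → ¬ (r' : ℕ) ∣ M → (r : ℕ) ≠ p → (r' : ℕ) ≠ p →
    Commute (heckeT M p r) (heckeT M p r')) ∧
  (∀ d d' : (ZMod M)ˣ, diaT M p (d * d') = diaT M p d * diaT M p d') ∧
  diaT M p 1 = 1

/-- **the summand** : `T_p J_H` is the range of an idempotent commuting with every operator -/
def SummandSeam (H : Subgroup (ZMod M)ˣ) : Prop :=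
  ∃ e : Module.End ℤ_[p] (TpJ1 M p), e * e = e ∧ LinearMap.range e = TpJH M p H ∧
    (Nat.card H : ℤ_[p]) • e = avgT M p H ∧
    (∀ σ : GQ, Commute (galT M p σ) e) ∧
    (∀ d : (ZMod M)ˣ, Commute (diaT M p d) e) ∧
    (∀ r : Nat.Primes, ¬ (r : ℕ) ∣ M → (r : ℕ) ≠ p → Commute (heckeT M p r) e)

/-- the Tate module is finite free over `ℤ_[p]` -/
def FiniteFreeSeam : Prop :=
  Module.Finite ℤ_[p] (TpJ1 M p) ∧ Module.Free ℤ_[p] (TpJ1 M p)

/-- inertia at `ℓ ∤ M p` acts trivially -/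
def UnramSeam : Prop :=
  ∀ ℓ : ℕ, ℓ.Prime → ℓ.Coprime M → ℓ ≠ p →
    ∀ A : ValuationSubring (AlgebraicClosure ℚ), A.LiesOverPrime ℓ →
      ∀ σ ∈ A.inertiaSubgroupIn ℚ, galT M p σ = 1

/-- **Eichler–Shimura on the Tate module** : `σ² - T_ℓ σ + ℓ ⟨ℓ⟩ = 0` for a Frobenius `σ` at
`ℓ ∤ M p` -/
def ESSeam : Prop :=
  ∀ (ℓ : Nat.Primes) (hℓM : (ℓ : ℕ).Coprime M), (ℓ : ℕ) ≠ p →
    ∀ A : ValuationSubring (AlgebraicClosure ℚ), A.LiesOverPrime ℓ →
      ∀ σ : GQ, A.IsFrobeniusAt σ ℓ →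
        galT M p σ * galT M p σ - heckeT M p ℓ * galT M p σ +
          ((ℓ : ℕ) : ℤ_[p]) • diaT M p (ZMod.unitOfCoprime (ℓ : ℕ) hℓM) = 0

/-- **the gate on the Tate module of `J₁(N q)`** : `(s - 1)(s - 1)(s - ⟨d⟩_*) = 0` for `s` in an
inertia group at `q` acting on the `q`-th roots of unity as `d ≡ 1 mod N` -/
def GateT (N q : ℕ) [NeZero (N * q)] : Prop :=
  ∀ A : ValuationSubring (AlgebraicClosure ℚ), A.LiesOverPrime q →
    ∀ s ∈ A.inertiaSubgroupIn ℚ, ∀ d : (ZMod (N * q))ˣ,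
      ZMod.castHom (Dvd.intro q rfl : N ∣ N * q) (ZMod N) (d : ZMod (N * q)) = 1 →
      (∀ ζ : AlgebraicClosure ℚ, ζ ^ q = 1 → s ζ = ζ ^ ((d : ZMod (N * q)).val)) →
        (galT (N * q) p s - 1) * ((galT (N * q) p s - 1) *
          (galT (N * q) p s - diaT (N * q) p d)) = 0

end Fermat.Agent.S43.JH.Seam
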