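/-
PROJECT R (row 37 by S43), block L0 = `S43/JH/**` (helper11): `T_p J_H` IS A DIRECT SUMMAND OF `T_p J₁(M)`.

`H ≤ (ℤ/M)ˣ` of order prime to `p`.  `e_H := |H|⁻¹ ∑_{h ∈ H} ⟨h⟩` is an idempotent of
`End_{ℤ_p} (T_p J₁(M))` with range the `H`-invariants `TpJH M p H`, commuting with the Galois action, with
every diamond operator and with every `T_r`, `r ∤ M p`.

* `avgT_mul_avgT`, `diaT_mul_avgT`, `avgT_apply_of_mem`;
* `eH M p H`, `eH_mul_eH`, `range_eH`, `card_smul_eH`;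
* **`summandSeam M p H (hH : ¬ p ∣ Nat.card H) : Seam.SummandSeam M p H`**.
-/
import Mathlib
import Fermat.Agent.S43.JH.Seam
import Fermat.Agent.S43.JH.Restrict

set_option autoImplicit false
set_option linter.unusedSectionVars false

noncomputable section

namespace Fermat.Agent.S43.JH.Summand

open Fermat.Agent.S48.B.Defs.Model
open Fermat.Agent.S30.Padic.TateModule
open Fermat.Agent.S43.JH.Seam Fermat.Agent.S43.JH.Restrict

local notation "GQ" => (AlgebraicClosure ℚ ≃ₐ[ℚ] AlgebraicClosure ℚ)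

variable (M : ℕ) [NeZero M] (p : ℕ) [hp : Fact p.Prime] (H : Subgroup (ZMod M)ˣ)

open Classical in
theorem avgT_eq : avgT M p H = ∑ h : H, diaT M p (h : (ZMod M)ˣ) := rfl

open Classical in
/-- `⟨h⟩ ∘ avg = avg` for `h ∈ H` -/
theorem diaT_mul_avgT {h : (ZMod M)ˣ} (hh : h ∈ H) : diaT M p h * avgT M p H = avgT M p H := by
  rw [avgT_eq, Finset.mul_sum]
  refine Fintype.sum_equiv (Equiv.mulLeft (⟨h, hh⟩ : H)) _ _ fun x => ?_
  rw [← diaT_mul]
  rfl

open Classical in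
/-- `avg ∘ avg = |H| avg` -/
theorem avgT_mul_avgT : avgT M p H * avgT M p H = (Nat.card H : ℤ_[p]) • avgT M p H := by
  have h0 : avgT M p H * avgT M p H = ∑ h : H, diaT M p (h : (ZMod M)ˣ) * avgT M p H := by
    rw [← Finset.sum_mul]
    rfl
  rw [h0, Finset.sum_congr rfl (fun h _ => diaT_mul_avgT M p H h.2), Finset.sum_const,
    Finset.card_univ, Fintype.card_eq_nat_card]
  exact (Nat.cast_smul_eq_nsmul ℤ_[p] _ _).symm

open Classical in
/-- on the invariants `avg = |H|` -/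
theorem avgT_apply_of_mem {x : TpJ1 M p} (hx : x ∈ TpJH M p H) :
    avgT M p H x = (Nat.card H : ℤ_[p]) • x := by
  rw [avgT_eq, LinearMap.sum_apply, Finset.sum_congr rfl (fun h _ => hx h.1 h.2), Finset.sum_const,
    Finset.card_univ, Fintype.card_eq_nat_card]
  exact (Nat.cast_smul_eq_nsmul ℤ_[p] _ _).symm

theorem isUnit_card (hH : ¬ p ∣ Nat.card H) : IsUnit (Nat.card H : ℤ_[p]) := by
  rw [PadicInt.isUnit_iff]
  have h1 := PadicInt.norm_le_one (Nat.card H : ℤ_[p])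
  have h2 : ¬ ‖(Nat.card H : ℤ_[p])‖ < 1 := fun h3 => hH ((PadicInt.norm_natCast_lt_one_iff).mp h3)
  exact le_antisymm h1 (not_lt.mp h2)

/-- **the idempotent `e_H = |H|⁻¹ ∑_{h ∈ H} ⟨h⟩`** -/
def eH (hH : ¬ p ∣ Nat.card H) : Module.End ℤ_[p] (TpJ1 M p) :=
  (((isUnit_card M p H hH).unit⁻¹ : ℤ_[p]ˣ) : ℤ_[p]) • avgT M p H

variable {M p H}

theorem card_smul_eH (hH : ¬ p ∣ Nat.card H) :
    (Nat.card H : ℤ_[p]) • eH M p H hH = avgT M p H := by
  rw [eH, smul_smul]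
  have : (Nat.card H : ℤ_[p]) * (((isUnit_card M p H hH).unit⁻¹ : ℤ_[p]ˣ) : ℤ_[p]) = 1 :=
    (isUnit_card M p H hH).mul_val_inv
  rw [this, one_smul]

theorem eH_mul_eH (hH : ¬ p ∣ Nat.card H) : eH M p H hH * eH M p H hH = eH M p H hH := by
  have h1 : eH M p H hH * avgT M p H = avgT M p H := by
    rw [eH, smul_mul_assoc, avgT_mul_avgT, smul_smul]
    have : (((isUnit_card M p H hH).unit⁻¹ : ℤ_[p]ˣ) : ℤ_[p]) * (Nat.card H : ℤ_[p]) = 1 :=
      (isUnit_card M p H hH).val_inv_mul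
    rw [this, one_smul]
  have h2 : eH M p H hH * eH M p H hH =
      (((isUnit_card M p H hH).unit⁻¹ : ℤ_[p]ˣ) : ℤ_[p]) • (eH M p H hH * avgT M p H) := by
    conv_lhs => rw [eH]
    rw [mul_smul_comm]
    rfl
  rw [h2, h1]
  rfl

theorem eH_apply_of_mem (hH : ¬ p ∣ Nat.card H) {x : TpJ1 M p} (hx : x ∈ TpJH M p H) :
    eH M p H hH x = x := by
  rw [eH, LinearMap.smul_apply, avgT_apply_of_mem M p H hx, smul_smul]
  have : (((isUnit_card M p H hH).unit⁻¹ : ℤ_[p]ˣ) : ℤ_[p]) * (Nat.card H : ℤ_[p]) = 1 :=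
    (isUnit_card M p H hH).val_inv_mul
  rw [this, one_smul]

theorem eH_mem (hH : ¬ p ∣ Nat.card H) (x : TpJ1 M p) : eH M p H hH x ∈ TpJH M p H := by
  intro h hh
  have h1 : diaT M p h * eH M p H hH = eH M p H hH := by
    rw [eH, mul_smul_comm, diaT_mul_avgT M p H hh]
  rw [← Module.End.mul_apply, h1]

theorem range_eH (hH : ¬ p ∣ Nat.card H) : LinearMap.range (eH M p H hH) = TpJH M p H := by
  apply le_antisymm
  · rintro _ ⟨x, rfl⟩
    exact eH_mem hH x
  · intro x hx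
    exact ⟨x, eH_apply_of_mem hH hx⟩

open Classical in
theorem commute_avgT {f : Module.End ℤ_[p] (TpJ1 M p)}
    (hf : ∀ d : (ZMod M)ˣ, Commute f (diaT M p d)) : Commute f (avgT M p H) := by
  rw [avgT_eq]
  exact Commute.sum_right _ _ _ fun h _ => hf h.1

theorem commute_eH (hH : ¬ p ∣ Nat.card H) {f : Module.End ℤ_[p] (TpJ1 M p)}
    (hf : ∀ d : (ZMod M)ˣ, Commute f (diaT M p d)) : Commute f (eH M p H hH) := by
  rw [eH]
  exact (commute_avgT hf).smul_right _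

variable (M p H)

/-- **`SummandSeam`** : `T_p J_H` is the range of an idempotent commuting with every operator -/
theorem summandSeam (hH : ¬ p ∣ Nat.card H) : SummandSeam M p H := by
  obtain ⟨h1, h2, h3, -, h5, -⟩ := commSeam M p
  refine ⟨eH M p H hH, eH_mul_eH hH, range_eH hH, card_smul_eH hH, fun σ => ?_, fun d => ?_,
    fun r hrM hrp => ?_⟩
  · exact commute_eH hH (h2 σ)
  · refine commute_eH hH fun d' => ?_
    show diaT M p d * diaT M p d' = diaT M p d' * diaT M p d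
    rw [← h5, ← h5, mul_comm]
  · exact commute_eH hH (h3 r hrM hrp)

end Fermat.Agent.S43.JH.Summand
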