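/-
PROJECT R (row 37 by S43), block L0 = `S43/JH/**` (helper11): THE EXPORTS OF L0 ON THE TWISTED GALOIS
MODULE `J1tw M m` of the chief's `S43/Tw/Defs` (`σ ⋆ y = ⟨cyc σ ^ m⟩_* (σ • y)`).

`TpTw M m p = Tp p (J1tw M m)` is `TpJ1 M p` as a `ℤ_[p]`-module (`toT`); under the ring isomorphism
`cjT : End (TpJ1 M p) ≃+* End (TpTw M m p)` the operators of record are
* `galTw σ   = cjT (⟨cyc σ ^ m⟩ * galT σ)`   (`galTw_eq`),
* `heckeTwT r = cjT (⟨r ^ m⟩ * T_r)`          (`heckeTwT_eq`, `r ∤ M`),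
* `diaTwT d  = cjT ⟨d⟩`                       (`diaTwT_eq`),
so every statement of `JH/{Restrict, Summand}` transports:
* **`commSeamTw`**, **`unramSeamTw`** (inertia at `ℓ ∤ M p` acts trivially),
* **`esSeamTw`** : `σ'² - T'_ℓ σ' + ℓ ⟨ℓ⟩^(2 m + 1) = 0` for every Frobenius `σ` at `ℓ ∤ M p`,
* **`finiteFreeSeamTw`** (`5 ≤ M`), **`eHTw`**, **`summandSeamTw`** (`p ∤ |H|`), `smoothTw` (open stabilisers).
For `m = 0` these are the statements of `JH/{Restrict, Summand}`.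
-/
import Mathlib
import Fermat.Agent.S43.JH.Seam
import Fermat.Agent.S43.JH.Restrict
import Fermat.Agent.S43.JH.Summand
import Fermat.Agent.S43.Tw.Defs
import Fermat.Agent.S48.B.Chain.GalChar

set_option autoImplicit false
set_option linter.unusedSectionVars false

noncomputable section

namespace Fermat.Agent.S43.JH.Tw

open Fermat.Agent.S48.B.Defs.Model
open Fermat.Agent.S30.Padic.TateModule
open Fermat.Agent.S43.JH.Seam Fermat.Agent.S43.JH.Restrict Fermat.Agent.S43.JH.Summand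
open Fermat.Agent.S43.Tw.Defs (cyc twOp J1tw toTw ofTw heckeTw diamondTw)

local notation "GQ" => (AlgebraicClosure ℚ ≃ₐ[ℚ] AlgebraicClosure ℚ)

variable (M : ℕ) [NeZero M] (m : ℕ) (p : ℕ) [hp : Fact p.Prime]

/-! ### the twisted Tate module and its operators -/

/-- **the `p`-adic Tate module of the twisted Galois module `J1tw M m`** -/
abbrev TpTw : Type := Tp p (J1tw M m)

/-- the identity, as a `ℤ_[p]`-linear equivalence -/
def toT : TpJ1 M p ≃ₗ[ℤ_[p]] TpTw M m p :=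
  LinearEquiv.ofLinearMap (Tp.map (p := p) (toTw M m).toAddMonoidHom)
    (Tp.map (p := p) (ofTw M m).toAddMonoidHom)
    (by ext x k; rfl) (by ext x k; rfl)

theorem toT_apply (x : TpJ1 M p) (k : ℕ) : (toT M m p x).1 k = toTw M m (x.1 k) := rfl

theorem toT_symm_apply (y : TpTw M m p) (k : ℕ) :
    ((toT M m p).symm y).1 k = ofTw M m (y.1 k) := rfl

/-- transport of the endomorphisms -/
def cjT : Module.End ℤ_[p] (TpJ1 M p) ≃+* Module.End ℤ_[p] (TpTw M m p) :=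
  (toT M m p).conjRingEquiv

theorem cjT_apply (f : Module.End ℤ_[p] (TpJ1 M p)) (y : TpTw M m p) :
    cjT M m p f y = toT M m p (f ((toT M m p).symm y)) := rfl

theorem cjT_smul (a : ℤ_[p]) (f : Module.End ℤ_[p] (TpJ1 M p)) :
    cjT M m p (a • f) = a • cjT M m p f := by
  ext y k
  rw [cjT_apply, LinearMap.smul_apply, LinearMap.smul_apply, map_smul, cjT_apply]

/-- the TWISTED Galois action on the Tate module -/
def galTw : GQ →* Module.End ℤ_[p] (TpTw M m p) := Tp.galoisHom (p := p) (J := J1tw M m) GQ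

/-- `T'_r = ⟨r^m⟩_* T_r` on the Tate module (`r ∤ M`) -/
def heckeTwT (r : Nat.Primes) (hr : (r : ℕ).Coprime M) : Module.End ℤ_[p] (TpTw M m p) :=
  Tp.mapEnd (p := p) (heckeTw M m r hr)

/-- `⟨d⟩_*` on the Tate module -/
def diaTwT (d : (ZMod M)ˣ) : Module.End ℤ_[p] (TpTw M m p) :=
  Tp.mapEnd (p := p) (diamondTw M m d)

theorem galTw_apply (σ : GQ) (y : TpTw M m p) (k : ℕ) : (galTw M m p σ y).1 k = σ • y.1 k := rfl

theorem heckeTwT_apply (r : Nat.Primes) (hr : (r : ℕ).Coprime M) (y : TpTw M m p) (k : ℕ) :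
    (heckeTwT M m p r hr y).1 k = heckeTw M m r hr (y.1 k) := rfl

theorem diaTwT_apply (d : (ZMod M)ˣ) (y : TpTw M m p) (k : ℕ) :
    (diaTwT M m p d y).1 k = diamondTw M m d (y.1 k) := rfl

/-! ### the three transport formulas -/

theorem galTw_eq (σ : GQ) :
    galTw M m p σ = cjT M m p (diaT M p (cyc M σ ^ m) * galT M p σ) := by
  ext y k
  rfl

theorem heckeTwT_eq (r : Nat.Primes) (hr : (r : ℕ).Coprime M) :
    heckeTwT M m p r hr =
      cjT M m p (diaT M p (ZMod.unitOfCoprime (r : ℕ) hr ^ m) * heckeT M p r) := by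
  ext y k
  rfl

theorem diaTwT_eq (d : (ZMod M)ˣ) : diaTwT M m p d = cjT M m p (diaT M p d) := by
  ext y k
  rfl

/-! ### commutations -/

variable {M p}

theorem commute_diaT_diaT (d d' : (ZMod M)ˣ) : Commute (diaT M p d) (diaT M p d') := by
  show diaT M p d * diaT M p d' = diaT M p d' * diaT M p d
  rw [← diaT_mul, ← diaT_mul, mul_comm]

theorem commute_galT_diaT (σ : GQ) (d : (ZMod M)ˣ) : Commute (galT M p σ) (diaT M p d) :=
  (commSeam M p).2.1 σ d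

theorem commute_galT_heckeT (σ : GQ) (r : Nat.Primes) : Commute (galT M p σ) (heckeT M p r) :=
  (commSeam M p).1 σ r

theorem commute_heckeT_diaT (r : Nat.Primes) (hrM : ¬ (r : ℕ) ∣ M) (hrp : (r : ℕ) ≠ p)
    (d : (ZMod M)ˣ) : Commute (heckeT M p r) (diaT M p d) :=
  (commSeam M p).2.2.1 r hrM hrp d

theorem commute_heckeT_heckeT (r r' : Nat.Primes) (hrM : ¬ (r : ℕ) ∣ M) (hr'M : ¬ (r' : ℕ) ∣ M)
    (hrp : (r : ℕ) ≠ p) (hr'p : (r' : ℕ) ≠ p) : Commute (heckeT M p r) (heckeT M p r') :=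
  (commSeam M p).2.2.2.1 r r' hrM hr'M hrp hr'p

theorem not_dvd_of_coprime {r : Nat.Primes} (hr : (r : ℕ).Coprime M) : ¬ (r : ℕ) ∣ M :=
  (Nat.Prime.coprime_iff_not_dvd r.2).mp hr

variable (M p)

/-- the twisted Galois action commutes with the diamond operators -/
theorem commute_galTw_diaTwT (σ : GQ) (d : (ZMod M)ˣ) :
    Commute (galTw M m p σ) (diaTwT M m p d) := by
  rw [galTw_eq, diaTwT_eq]
  exact ((commute_diaT_diaT _ d).mul_left (commute_galT_diaT σ d)).map (cjT M m p)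

/-- the twisted Galois action commutes with `T'_r`, `r ∤ M p` -/
theorem commute_galTw_heckeTwT (σ : GQ) (r : Nat.Primes) (hr : (r : ℕ).Coprime M)
    (hrp : (r : ℕ) ≠ p) : Commute (galTw M m p σ) (heckeTwT M m p r hr) := by
  rw [galTw_eq, heckeTwT_eq]
  have hrM := not_dvd_of_coprime hr
  refine Commute.map ?_ (cjT M m p)
  refine Commute.mul_left ?_ ?_
  · exact (commute_diaT_diaT _ _).mul_right (commute_heckeT_diaT r hrM hrp _).symm
  · exact (commute_galT_diaT σ _).mul_right (commute_galT_heckeT σ r)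

/-- `T'_r`, `r ∤ M p`, commutes with the diamond operators -/
theorem commute_heckeTwT_diaTwT (r : Nat.Primes) (hr : (r : ℕ).Coprime M) (hrp : (r : ℕ) ≠ p)
    (d : (ZMod M)ˣ) : Commute (heckeTwT M m p r hr) (diaTwT M m p d) := by
  rw [heckeTwT_eq, diaTwT_eq]
  exact ((commute_diaT_diaT _ d).mul_left
    (commute_heckeT_diaT r (not_dvd_of_coprime hr) hrp d)).map (cjT M m p)

/-- `T'_r` and `T'_{r'}`, `r, r' ∤ M p`, commute -/
theorem commute_heckeTwT_heckeTwT (r r' : Nat.Primes) (hr : (r : ℕ).Coprime M)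
    (hr' : (r' : ℕ).Coprime M) (hrp : (r : ℕ) ≠ p) (hr'p : (r' : ℕ) ≠ p) :
    Commute (heckeTwT M m p r hr) (heckeTwT M m p r' hr') := by
  rw [heckeTwT_eq, heckeTwT_eq]
  have hrM := not_dvd_of_coprime hr
  have hr'M := not_dvd_of_coprime hr'
  refine Commute.map ?_ (cjT M m p)
  refine Commute.mul_left ?_ ?_
  · exact (commute_diaT_diaT _ _).mul_right (commute_heckeT_diaT r' hr'M hr'p _).symm
  · exact (commute_heckeT_diaT r hrM hrp _).mul_right
      (commute_heckeT_heckeT r r' hrM hr'M hrp hr'p)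

theorem diaTwT_mul (d d' : (ZMod M)ˣ) :
    diaTwT M m p (d * d') = diaTwT M m p d * diaTwT M m p d' := by
  rw [diaTwT_eq, diaTwT_eq, diaTwT_eq, diaT_mul, map_mul]

theorem diaTwT_one : diaTwT M m p 1 = 1 := by
  rw [diaTwT_eq, diaT_one, map_one]

theorem diaTwT_pow (d : (ZMod M)ˣ) (n : ℕ) : diaTwT M m p (d ^ n) = diaTwT M m p d ^ n := by
  induction n with
  | zero => rw [pow_zero, pow_zero, diaTwT_one]
  | succ n ih => rw [pow_succ, pow_succ, diaTwT_mul, ih]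

theorem commute_diaTwT_diaTwT (d d' : (ZMod M)ˣ) :
    Commute (diaTwT M m p d) (diaTwT M m p d') := by
  show diaTwT M m p d * diaTwT M m p d' = diaTwT M m p d' * diaTwT M m p d
  rw [← diaTwT_mul, ← diaTwT_mul, mul_comm]

/-- **`CommSeam`, twisted** -/
theorem commSeamTw :
    (∀ (σ : GQ) (r : Nat.Primes) (hr : (r : ℕ).Coprime M), (r : ℕ) ≠ p →
      Commute (galTw M m p σ) (heckeTwT M m p r hr)) ∧
    (∀ (σ : GQ) (d : (ZMod M)ˣ), Commute (galTw M m p σ) (diaTwT M m p d)) ∧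
    (∀ (r : Nat.Primes) (hr : (r : ℕ).Coprime M), (r : ℕ) ≠ p → ∀ d : (ZMod M)ˣ,
      Commute (heckeTwT M m p r hr) (diaTwT M m p d)) ∧
    (∀ (r r' : Nat.Primes) (hr : (r : ℕ).Coprime M) (hr' : (r' : ℕ).Coprime M),
      (r : ℕ) ≠ p → (r' : ℕ) ≠ p → Commute (heckeTwT M m p r hr) (heckeTwT M m p r' hr')) ∧
    (∀ d d' : (ZMod M)ˣ, diaTwT M m p (d * d') = diaTwT M m p d * diaTwT M m p d') ∧
    diaTwT M m p 1 = 1 :=
  ⟨fun σ r hr hrp => commute_galTw_heckeTwT M m p σ r hr hrp,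
    fun σ d => commute_galTw_diaTwT M m p σ d,
    fun r hr hrp d => commute_heckeTwT_diaTwT M m p r hr hrp d,
    fun r r' hr hr' hrp hr'p => commute_heckeTwT_heckeTwT M m p r r' hr hr' hrp hr'p,
    diaTwT_mul M m p, diaTwT_one M m p⟩

/-! ### unramifiedness and Eichler–Shimura -/

/-- `cyc M σ = 1` on the inertia groups at `ℓ ∤ M` -/
theorem cyc_inertia {ℓ : ℕ} (hℓ : ℓ.Prime) (hℓM : ℓ.Coprime M)
    (A : ValuationSubring (AlgebraicClosure ℚ)) (hA : A.LiesOverPrime ℓ) {σ : GQ}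
    (hσ : σ ∈ A.inertiaSubgroupIn ℚ) : cyc M σ = 1 :=
  Fermat.Agent.S48.B.Chain.GalChar.chi_inertia M hℓ
    ((Nat.Prime.coprime_iff_not_dvd hℓ).mp hℓM) A hA σ hσ

/-- `cyc M σ = ℓ` for a Frobenius `σ` at `ℓ ∤ M` -/
theorem cyc_frob {ℓ : ℕ} (hℓ : ℓ.Prime) (hℓM : ℓ.Coprime M)
    (A : ValuationSubring (AlgebraicClosure ℚ)) (hA : A.LiesOverPrime ℓ) {σ : GQ}
    (hσ : A.IsFrobeniusAt σ ℓ) : cyc M σ = ZMod.unitOfCoprime ℓ hℓM := by
  apply Units.ext
  rw [ZMod.coe_unitOfCoprime]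
  exact Fermat.Agent.S48.B.Chain.GalChar.chi_frob M hℓ
    ((Nat.Prime.coprime_iff_not_dvd hℓ).mp hℓM) A hA σ hσ

/-- **`UnramSeam`, twisted** : inertia at `ℓ ∤ M p` acts trivially on `TpTw M m p` -/
theorem unramSeamTw :
    ∀ ℓ : ℕ, ℓ.Prime → ℓ.Coprime M → ℓ ≠ p →
      ∀ A : ValuationSubring (AlgebraicClosure ℚ), A.LiesOverPrime ℓ →
        ∀ σ ∈ A.inertiaSubgroupIn ℚ, galTw M m p σ = 1 := by
  intro ℓ hℓ hℓM hℓp A hA σ hσ
  rw [galTw_eq, cyc_inertia M hℓ hℓM A hA hσ, one_pow, diaT_one, one_mul,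
    unramSeam M p ℓ hℓ hℓM hℓp A hA σ hσ, map_one]

/-- the ring identity behind the twisted Eichler–Shimura relation, transported by a ring
isomorphism -/
theorem twist_identity {R R' : Type*} [Ring R] [Ring R'] [Module ℤ_[p] R] [Module ℤ_[p] R']
    [IsScalarTower ℤ_[p] R R] [SMulCommClass ℤ_[p] R R] (φ : R ≃+* R')
    (hφ : ∀ (a : ℤ_[p]) (f : R), φ (a • f) = a • φ f) (D S T U : R) (a : ℤ_[p])
    (hDS : Commute D S) (hDT : Commute D T) (h : S * S - T * S + a • U = 0) :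
    φ (D * S) * φ (D * S) - φ (D * T) * φ (D * S) + a • φ (D * D * U) = 0 := by
  have e1 : D * S * (D * S) = D * D * (S * S) := by
    rw [mul_assoc, ← mul_assoc S D S, ← hDS.eq, mul_assoc D S S, ← mul_assoc]
  have e2 : D * T * (D * S) = D * D * (T * S) := by
    rw [mul_assoc, ← mul_assoc T D S, ← hDT.eq, mul_assoc D T S, ← mul_assoc]
  rw [← map_mul, ← map_mul, ← hφ, ← map_sub, ← map_add, e1, e2, ← mul_smul_comm, ← mul_sub,
    ← mul_add, h, mul_zero, map_zero]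

/-- **`ESSeam`, twisted** : `σ'² - T'_ℓ σ' + ℓ ⟨ℓ⟩^(2 m + 1) = 0` for a Frobenius `σ` at `ℓ ∤ M p` -/
theorem esSeamTw :
    ∀ (ℓ : Nat.Primes) (hℓM : (ℓ : ℕ).Coprime M), (ℓ : ℕ) ≠ p →
      ∀ A : ValuationSubring (AlgebraicClosure ℚ), A.LiesOverPrime ℓ →
        ∀ σ : GQ, A.IsFrobeniusAt σ ℓ →
          galTw M m p σ * galTw M m p σ - heckeTwT M m p ℓ hℓM * galTw M m p σ +
            ((ℓ : ℕ) : ℤ_[p]) • diaTwT M m p (ZMod.unitOfCoprime (ℓ : ℕ) hℓM ^ (2 * m + 1)) = 0 := by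
  intro ℓ hℓM hℓp A hA σ hσ
  have hES := esSeam M p ℓ hℓM hℓp A hA σ hσ
  have hℓM' := not_dvd_of_coprime hℓM
  have hDS : Commute (diaT M p (ZMod.unitOfCoprime (ℓ : ℕ) hℓM ^ m)) (galT M p σ) :=
    (commute_galT_diaT σ _).symm
  have hDT : Commute (diaT M p (ZMod.unitOfCoprime (ℓ : ℕ) hℓM ^ m)) (heckeT M p ℓ) :=
    (commute_heckeT_diaT ℓ hℓM' hℓp _).symm
  have hdia : diaT M p (ZMod.unitOfCoprime (ℓ : ℕ) hℓM ^ (2 * m + 1)) =
      diaT M p (ZMod.unitOfCoprime (ℓ : ℕ) hℓM ^ m) *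
        diaT M p (ZMod.unitOfCoprime (ℓ : ℕ) hℓM ^ m) *
          diaT M p (ZMod.unitOfCoprime (ℓ : ℕ) hℓM) := by
    rw [← diaT_mul, ← diaT_mul, ← pow_add, ← pow_succ, two_mul]
  have hg : galTw M m p σ =
      cjT M m p (diaT M p (ZMod.unitOfCoprime (ℓ : ℕ) hℓM ^ m) * galT M p σ) := by
    rw [galTw_eq, cyc_frob M ℓ.2 hℓM A hA hσ]
  rw [hg, heckeTwT_eq, diaTwT_eq, hdia]
  exact twist_identity p (cjT M m p) (cjT_smul M m p)
    (diaT M p (ZMod.unitOfCoprime (ℓ : ℕ) hℓM ^ m)) (galT M p σ) (heckeT M p ℓ)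
    (diaT M p (ZMod.unitOfCoprime (ℓ : ℕ) hℓM)) ((ℓ : ℕ) : ℤ_[p]) hDS hDT hES

/-- Eichler–Shimura in the shape of `X₀` on the vectors fixed by `⟨ℓ⟩^(2 m + 1)` -/
theorem esSeamTw_apply_of_fixed (ℓ : Nat.Primes) (hℓM : (ℓ : ℕ).Coprime M) (hℓp : (ℓ : ℕ) ≠ p)
    (A : ValuationSubring (AlgebraicClosure ℚ)) (hA : A.LiesOverPrime ℓ) (σ : GQ)
    (hσ : A.IsFrobeniusAt σ ℓ) {y : TpTw M m p}
    (hy : diaTwT M m p (ZMod.unitOfCoprime (ℓ : ℕ) hℓM ^ (2 * m + 1)) y = y) :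
    galTw M m p σ (galTw M m p σ y) - heckeTwT M m p ℓ hℓM (galTw M m p σ y) +
      ((ℓ : ℕ) : ℤ_[p]) • y = 0 := by
  have h := LinearMap.congr_fun (esSeamTw M m p ℓ hℓM hℓp A hA σ hσ) y
  rw [LinearMap.add_apply, LinearMap.sub_apply, Module.End.mul_apply, Module.End.mul_apply,
    LinearMap.smul_apply, hy, LinearMap.zero_apply] at h
  exact h

/-! ### open stabilisers -/

/-- every point of the twisted module `J1tw M m` has an open stabiliser -/
theorem smoothTw (y : J1tw M m) :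
    ∃ L : IntermediateField ℚ (AlgebraicClosure ℚ), FiniteDimensional ℚ L ∧
      ∀ σ : GQ, (∀ x ∈ L, σ x = x) → σ • y = y := by
  obtain ⟨L₁, hL₁, h₁⟩ := smooth M (ofTw M m y)
  obtain ⟨L₂, hL₂, h₂⟩ := Fermat.Agent.S48.B.Chain.GalChar.chi_finiteLevel M
  refine ⟨L₁ ⊔ L₂, IntermediateField.finiteDimensional_sup L₁ L₂, fun σ hσ => ?_⟩
  have e₁ : σ • ofTw M m y = ofTw M m y := h₁ σ fun x hx => hσ x ((le_sup_left : L₁ ≤ L₁ ⊔ L₂) hx)
  have e₂ : cyc M σ = 1 := h₂ σ fun x hx => hσ x ((le_sup_right : L₂ ≤ L₁ ⊔ L₂) hx)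
  apply (ofTw M m).injective
  rw [Fermat.Agent.S43.Tw.Defs.ofTw_smul_of_cyc_eq_one M m e₂, e₁]

/-! ### finiteness -/

/-- **`FiniteFreeSeam`, twisted** (`M ≥ 5`) -/
theorem finiteFreeSeamTw (hM : 5 ≤ M) :
    Module.Finite ℤ_[p] (TpTw M m p) ∧ Module.Free ℤ_[p] (TpTw M m p) := by
  obtain ⟨h1, h2⟩ := finiteFreeSeam M p hM
  exact ⟨Module.Finite.equiv (toT M m p), Module.Free.of_equiv (toT M m p)⟩

/-! ### the summand `e_H` -/

variable (H : Subgroup (ZMod M)ˣ)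

/-- **`T_p J_H`, twisted** : the `H`-invariants of `TpTw M m p` -/
def TpJHTw : Submodule ℤ_[p] (TpTw M m p) where
  carrier := {y | ∀ h ∈ H, diaTwT M m p h y = y}
  add_mem' := by
    intro a b ha hb h hh
    rw [map_add, ha h hh, hb h hh]
  zero_mem' := fun h _ => map_zero _
  smul_mem' := by
    intro c a ha h hh
    rw [map_smul, ha h hh]

theorem mem_TpJHTw_iff (y : TpTw M m p) :
    y ∈ TpJHTw M m p H ↔ (toT M m p).symm y ∈ TpJH M p H := by
  constructor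
  · intro hy h hh
    have := hy h hh
    rw [diaTwT_eq, cjT_apply] at this
    exact (toT M m p).injective (by rw [this, LinearEquiv.apply_symm_apply])
  · intro hy h hh
    rw [diaTwT_eq, cjT_apply, hy h hh, LinearEquiv.apply_symm_apply]

/-- **the idempotent `e_H`** on the twisted Tate module -/
def eHTw (hH : ¬ p ∣ Nat.card H) : Module.End ℤ_[p] (TpTw M m p) :=
  cjT M m p (eH M p H hH)

variable {M p H}

theorem eHTw_mul_eHTw (hH : ¬ p ∣ Nat.card H) :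
    eHTw M m p H hH * eHTw M m p H hH = eHTw M m p H hH := by
  rw [eHTw, ← map_mul, eH_mul_eH]

theorem eHTw_apply_of_mem (hH : ¬ p ∣ Nat.card H) {y : TpTw M m p}
    (hy : y ∈ TpJHTw M m p H) : eHTw M m p H hH y = y := by
  rw [eHTw, cjT_apply, eH_apply_of_mem hH ((mem_TpJHTw_iff M m p H y).mp hy),
    LinearEquiv.apply_symm_apply]

theorem eHTw_mem (hH : ¬ p ∣ Nat.card H) (y : TpTw M m p) :
    eHTw M m p H hH y ∈ TpJHTw M m p H := by
  rw [mem_TpJHTw_iff, eHTw, cjT_apply, LinearEquiv.symm_apply_apply]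
  exact eH_mem hH _

theorem range_eHTw (hH : ¬ p ∣ Nat.card H) :
    LinearMap.range (eHTw M m p H hH) = TpJHTw M m p H := by
  apply le_antisymm
  · rintro _ ⟨y, rfl⟩
    exact eHTw_mem m hH y
  · intro y hy
    exact ⟨y, eHTw_apply_of_mem m hH hy⟩

theorem commute_eHTw (hH : ¬ p ∣ Nat.card H) {f : Module.End ℤ_[p] (TpTw M m p)}
    (hf : ∀ d : (ZMod M)ˣ, Commute f (diaTwT M m p d)) : Commute f (eHTw M m p H hH) := by
  have h1 : f = cjT M m p ((cjT M m p).symm f) := (RingEquiv.apply_symm_apply _ _).symm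
  rw [eHTw, h1]
  refine Commute.map (commute_eH hH fun d => ?_) (cjT M m p)
  have h2 := (hf d).map (cjT M m p).symm
  rwa [diaTwT_eq, RingEquiv.symm_apply_apply] at h2

variable (M p H)

/-- **`SummandSeam`, twisted** : `TpJHTw` is the range of an idempotent commuting with every
operator -/
theorem summandSeamTw (hH : ¬ p ∣ Nat.card H) :
    ∃ e : Module.End ℤ_[p] (TpTw M m p), e * e = e ∧ LinearMap.range e = TpJHTw M m p H ∧
      (∀ σ : GQ, Commute (galTw M m p σ) e) ∧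
      (∀ d : (ZMod M)ˣ, Commute (diaTwT M m p d) e) ∧
      (∀ (r : Nat.Primes) (hr : (r : ℕ).Coprime M), (r : ℕ) ≠ p →
        Commute (heckeTwT M m p r hr) e) :=
  ⟨eHTw M m p H hH, eHTw_mul_eHTw m hH, range_eHTw m hH,
    fun σ => commute_eHTw m hH (commute_galTw_diaTwT M m p σ),
    fun d => commute_eHTw m hH (commute_diaTwT_diaTwT M m p d),
    fun r hr hrp => commute_eHTw m hH (commute_heckeTwT_diaTwT M m p r hr hrp)⟩

end Fermat.Agent.S43.JH.Tw
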