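/-
PROJECT R (row 37 by S43), block L0 = `S43/JH/**` (helper11): THE MODULE OF RECORD
`LamH M m p H = (T_p J1tw M m)^H`, THE `H`-INVARIANTS OF THE TWISTED TATE MODULE, WITH ITS OPERATORS.

`H ≤ (ℤ/M)ˣ`.  On `LamH M m p H` (a `ℤ_[p]`-submodule of `TpTw M m p`, the range of `eHTw` when
`p ∤ |H|`):
* `galH : G_ℚ →* End`, `heckeH r` (`r ∤ M p`), `diaH d` : the restricted operators;
  they commute (`commute_galH_heckeH`, `commute_galH_diaH`, `commute_heckeH_diaH`,
  `commute_heckeH_heckeH`), `diaH` is multiplicative and `diaH h = 1` for `h ∈ H`;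
* `finite_LamH`, `free_LamH` (`5 ≤ M`) ;
* `unramH` : inertia at `ℓ ∤ M p` acts trivially ;
* **`esH`** : if `d ^ (2 m + 1) ∈ H` for every `d`, then for every Frobenius `σ` at `ℓ ∤ M p`
  `galH σ * galH σ - heckeH ℓ * galH σ + ℓ • 1 = 0`  (THE SHAPE OF `X₀`, `det = ε_p` on the nose);
* `projH` : the projection `TpTw M m p → LamH M m p H` (`p ∤ |H|`), equivariant for every operator;
* the canonical choice `Hp M p` (prime-to-`p` part of `(ℤ/M)ˣ`, `JH/PrimeToP`), `mTw M p`,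
  `Lam0 M p`, **`es0`** (`p` odd).
-/
import Mathlib
import Fermat.Agent.S43.JH.Tw
import Fermat.Agent.S43.JH.PrimeToP

set_option autoImplicit false
set_option linter.unusedSectionVars false

noncomputable section

namespace Fermat.Agent.S43.JH.Part

open Fermat.Agent.S48.B.Defs.Model
open Fermat.Agent.S30.Padic.TateModule
open Fermat.Agent.S43.JH.Tw Fermat.Agent.S43.JH.PrimeToP

local notation "GQ" => (AlgebraicClosure ℚ ≃ₐ[ℚ] AlgebraicClosure ℚ)

variable (M : ℕ) [NeZero M] (m : ℕ) (p : ℕ) [hp : Fact p.Prime] (H : Subgroup (ZMod M)ˣ)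

/-- **the module of record** : the `H`-invariants of the twisted Tate module -/
abbrev LamH : Type := ↥(TpJHTw M m p H)

variable {M m p H}

/-- an endomorphism commuting with the diamond operators preserves the invariants -/
theorem mem_of_commute {f : Module.End ℤ_[p] (TpTw M m p)}
    (hf : ∀ d : (ZMod M)ˣ, Commute f (diaTwT M m p d)) {y : TpTw M m p}
    (hy : y ∈ TpJHTw M m p H) : f y ∈ TpJHTw M m p H := by
  intro h hh
  rw [← Module.End.mul_apply, ← (hf h).eq, Module.End.mul_apply, hy h hh]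

theorem galTw_mem (σ : GQ) {y : TpTw M m p} (hy : y ∈ TpJHTw M m p H) :
    galTw M m p σ y ∈ TpJHTw M m p H :=
  mem_of_commute (commute_galTw_diaTwT M m p σ) hy

theorem heckeTwT_mem (r : Nat.Primes) (hr : (r : ℕ).Coprime M) (hrp : (r : ℕ) ≠ p)
    {y : TpTw M m p} (hy : y ∈ TpJHTw M m p H) : heckeTwT M m p r hr y ∈ TpJHTw M m p H :=
  mem_of_commute (commute_heckeTwT_diaTwT M m p r hr hrp) hy

theorem diaTwT_mem (d : (ZMod M)ˣ) {y : TpTw M m p} (hy : y ∈ TpJHTw M m p H) :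
    diaTwT M m p d y ∈ TpJHTw M m p H :=
  mem_of_commute (commute_diaTwT_diaTwT M m p d) hy

variable (M m p H)

/-- the Galois action on `LamH` -/
def galH : GQ →* Module.End ℤ_[p] (LamH M m p H) where
  toFun σ := (galTw M m p σ).restrict fun _ hy => galTw_mem σ hy
  map_one' := by
    refine LinearMap.ext fun y => Subtype.ext ?_
    show (galTw M m p 1 y.1 : TpTw M m p) = y.1
    rw [map_one, Module.End.one_apply]
  map_mul' σ τ := by
    refine LinearMap.ext fun y => Subtype.ext ?_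
    show (galTw M m p (σ * τ) y.1 : TpTw M m p) = galTw M m p σ (galTw M m p τ y.1)
    rw [map_mul, Module.End.mul_apply]

/-- `T'_r` on `LamH`, `r ∤ M p` -/
def heckeH (r : Nat.Primes) (hr : (r : ℕ).Coprime M) (hrp : (r : ℕ) ≠ p) :
    Module.End ℤ_[p] (LamH M m p H) :=
  (heckeTwT M m p r hr).restrict fun _ hy => heckeTwT_mem r hr hrp hy

/-- `⟨d⟩_*` on `LamH` -/
def diaH (d : (ZMod M)ˣ) : Module.End ℤ_[p] (LamH M m p H) :=
  (diaTwT M m p d).restrict fun _ hy => diaTwT_mem d hy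

@[simp] theorem coe_galH_apply (σ : GQ) (y : LamH M m p H) :
    ((galH M m p H σ y : LamH M m p H) : TpTw M m p) = galTw M m p σ y.1 := rfl

@[simp] theorem coe_heckeH_apply (r : Nat.Primes) (hr : (r : ℕ).Coprime M) (hrp : (r : ℕ) ≠ p)
    (y : LamH M m p H) :
    ((heckeH M m p H r hr hrp y : LamH M m p H) : TpTw M m p) = heckeTwT M m p r hr y.1 := rfl

@[simp] theorem coe_diaH_apply (d : (ZMod M)ˣ) (y : LamH M m p H) :
    ((diaH M m p H d y : LamH M m p H) : TpTw M m p) = diaTwT M m p d y.1 := rfl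

/-! ### commutations -/

theorem commute_galH_heckeH (σ : GQ) (r : Nat.Primes) (hr : (r : ℕ).Coprime M)
    (hrp : (r : ℕ) ≠ p) : Commute (galH M m p H σ) (heckeH M m p H r hr hrp) := by
  refine LinearMap.ext fun y => Subtype.ext ?_
  exact LinearMap.congr_fun (commute_galTw_heckeTwT M m p σ r hr hrp).eq y.1

theorem commute_galH_diaH (σ : GQ) (d : (ZMod M)ˣ) :
    Commute (galH M m p H σ) (diaH M m p H d) := by
  refine LinearMap.ext fun y => Subtype.ext ?_
  exact LinearMap.congr_fun (commute_galTw_diaTwT M m p σ d).eq y.1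

theorem commute_heckeH_diaH (r : Nat.Primes) (hr : (r : ℕ).Coprime M) (hrp : (r : ℕ) ≠ p)
    (d : (ZMod M)ˣ) : Commute (heckeH M m p H r hr hrp) (diaH M m p H d) := by
  refine LinearMap.ext fun y => Subtype.ext ?_
  exact LinearMap.congr_fun (commute_heckeTwT_diaTwT M m p r hr hrp d).eq y.1

theorem commute_heckeH_heckeH (r r' : Nat.Primes) (hr : (r : ℕ).Coprime M)
    (hr' : (r' : ℕ).Coprime M) (hrp : (r : ℕ) ≠ p) (hr'p : (r' : ℕ) ≠ p) :
    Commute (heckeH M m p H r hr hrp) (heckeH M m p H r' hr' hr'p) := by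
  refine LinearMap.ext fun y => Subtype.ext ?_
  exact LinearMap.congr_fun (commute_heckeTwT_heckeTwT M m p r r' hr hr' hrp hr'p).eq y.1

theorem diaH_mul (d d' : (ZMod M)ˣ) :
    diaH M m p H (d * d') = diaH M m p H d * diaH M m p H d' := by
  refine LinearMap.ext fun y => Subtype.ext ?_
  exact LinearMap.congr_fun (diaTwT_mul M m p d d') y.1

theorem diaH_one : diaH M m p H 1 = 1 := by
  refine LinearMap.ext fun y => Subtype.ext ?_
  exact LinearMap.congr_fun (diaTwT_one M m p) y.1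

theorem diaH_pow (d : (ZMod M)ˣ) (n : ℕ) : diaH M m p H (d ^ n) = diaH M m p H d ^ n := by
  induction n with
  | zero => rw [pow_zero, pow_zero, diaH_one]
  | succ n ih => rw [pow_succ, pow_succ, diaH_mul, ih]

/-- the diamonds of `H` act trivially on `LamH` -/
theorem diaH_of_mem {h : (ZMod M)ˣ} (hh : h ∈ H) : diaH M m p H h = 1 := by
  refine LinearMap.ext fun y => Subtype.ext ?_
  exact y.2 h hh

/-! ### finiteness -/

theorem finite_LamH (hM : 5 ≤ M) : Module.Finite ℤ_[p] (LamH M m p H) := by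
  have := (finiteFreeSeamTw M m p hM).1
  infer_instance

theorem free_LamH (hM : 5 ≤ M) : Module.Free ℤ_[p] (LamH M m p H) := by
  have := (finiteFreeSeamTw M m p hM).1
  have := (finiteFreeSeamTw M m p hM).2
  infer_instance

/-! ### unramifiedness and Eichler–Shimura -/

/-- inertia at `ℓ ∤ M p` acts trivially on `LamH` -/
theorem unramH :
    ∀ ℓ : ℕ, ℓ.Prime → ℓ.Coprime M → ℓ ≠ p →
      ∀ A : ValuationSubring (AlgebraicClosure ℚ), A.LiesOverPrime ℓ →
        ∀ σ ∈ A.inertiaSubgroupIn ℚ, galH M m p H σ = 1 := by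
  intro ℓ hℓ hℓM hℓp A hA σ hσ
  refine LinearMap.ext fun y => Subtype.ext ?_
  exact LinearMap.congr_fun (unramSeamTw M m p ℓ hℓ hℓM hℓp A hA σ hσ) y.1

/-- **Eichler–Shimura on `LamH`, in the shape of `X₀`** : if `d ^ (2 m + 1) ∈ H` for every `d`,
then `σ'² - T'_ℓ σ' + ℓ = 0` for every Frobenius `σ` at `ℓ ∤ M p` -/
theorem esH (hHm : ∀ d : (ZMod M)ˣ, d ^ (2 * m + 1) ∈ H)
    (ℓ : Nat.Primes) (hℓM : (ℓ : ℕ).Coprime M) (hℓp : (ℓ : ℕ) ≠ p)
    (A : ValuationSubring (AlgebraicClosure ℚ)) (hA : A.LiesOverPrime ℓ) (σ : GQ)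
    (hσ : A.IsFrobeniusAt σ ℓ) :
    galH M m p H σ * galH M m p H σ - heckeH M m p H ℓ hℓM hℓp * galH M m p H σ +
      ((ℓ : ℕ) : ℤ_[p]) • (1 : Module.End ℤ_[p] (LamH M m p H)) = 0 := by
  refine LinearMap.ext fun y => Subtype.ext ?_
  exact esSeamTw_apply_of_fixed M m p ℓ hℓM hℓp A hA σ hσ (y.2 _ (hHm _))

/-! ### the projection -/

/-- the projection `e_H : TpTw M m p → LamH M m p H` -/
def projH (hH : ¬ p ∣ Nat.card H) : TpTw M m p →ₗ[ℤ_[p]] LamH M m p H :=
  (eHTw M m p H hH).codRestrict (TpJHTw M m p H) fun y => eHTw_mem m hH y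

theorem coe_projH_apply (hH : ¬ p ∣ Nat.card H) (y : TpTw M m p) :
    ((projH M m p H hH y : LamH M m p H) : TpTw M m p) = eHTw M m p H hH y := rfl

theorem projH_coe (hH : ¬ p ∣ Nat.card H) (y : LamH M m p H) : projH M m p H hH y.1 = y :=
  Subtype.ext (eHTw_apply_of_mem m hH y.2)

theorem projH_surjective (hH : ¬ p ∣ Nat.card H) : Function.Surjective (projH M m p H hH) :=
  fun y => ⟨y.1, projH_coe M m p H hH y⟩

theorem projH_galTw (hH : ¬ p ∣ Nat.card H) (σ : GQ) (y : TpTw M m p) :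
    projH M m p H hH (galTw M m p σ y) = galH M m p H σ (projH M m p H hH y) :=
  Subtype.ext (LinearMap.congr_fun
    (commute_eHTw m hH (commute_galTw_diaTwT M m p σ)).eq.symm y)

theorem projH_heckeTwT (hH : ¬ p ∣ Nat.card H) (r : Nat.Primes) (hr : (r : ℕ).Coprime M)
    (hrp : (r : ℕ) ≠ p) (y : TpTw M m p) :
    projH M m p H hH (heckeTwT M m p r hr y) = heckeH M m p H r hr hrp (projH M m p H hH y) :=
  Subtype.ext (LinearMap.congr_fun
    (commute_eHTw m hH (commute_heckeTwT_diaTwT M m p r hr hrp)).eq.symm y)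

theorem projH_diaTwT (hH : ¬ p ∣ Nat.card H) (d : (ZMod M)ˣ) (y : TpTw M m p) :
    projH M m p H hH (diaTwT M m p d y) = diaH M m p H d (projH M m p H hH y) :=
  Subtype.ext (LinearMap.congr_fun
    (commute_eHTw m hH (commute_diaTwT_diaTwT M m p d)).eq.symm y)

/-! ### the canonical choice: `H` = the prime-to-`p` part of `(ℤ/M)ˣ`, `m = (p^a - 1)/2` -/

/-- the prime-to-`p` part of `(ℤ/M)ˣ` -/
abbrev Hp : Subgroup (ZMod M)ˣ := primeToP (ZMod M)ˣ p

/-- the twisting exponent `m = (p ^ a - 1) / 2`, `p ^ a ∥ φ(M)` -/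
abbrev mTw : ℕ := twExp (ZMod M)ˣ p

/-- **the module of record** `Λ₀ = e_H T_p (J1tw M m)`, `H = Hp M p`, `m = mTw M p` -/
abbrev Lam0 : Type := LamH M (mTw M p) p (Hp M p)

theorem not_dvd_card_Hp : ¬ p ∣ Nat.card (Hp M p) := not_dvd_card_primeToP

/-- **Eichler–Shimura on `Lam0`** (`p` odd) : `σ'² - T'_ℓ σ' + ℓ = 0` -/
theorem es0 (hp2 : p ≠ 2) (ℓ : Nat.Primes) (hℓM : (ℓ : ℕ).Coprime M) (hℓp : (ℓ : ℕ) ≠ p)
    (A : ValuationSubring (AlgebraicClosure ℚ)) (hA : A.LiesOverPrime ℓ) (σ : GQ)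
    (hσ : A.IsFrobeniusAt σ ℓ) :
    galH M (mTw M p) p (Hp M p) σ * galH M (mTw M p) p (Hp M p) σ -
        heckeH M (mTw M p) p (Hp M p) ℓ hℓM hℓp * galH M (mTw M p) p (Hp M p) σ +
      ((ℓ : ℕ) : ℤ_[p]) • (1 : Module.End ℤ_[p] (Lam0 M p)) = 0 :=
  esH M (mTw M p) p (Hp M p) (pow_twExp_mem hp2) ℓ hℓM hℓp A hA σ hσ

end Fermat.Agent.S43.JH.Part
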